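import Fermat.Agent.FreyUnramified.Cubic

/-!
# From the Frey model to a two-torsion model

The change of coordinates `u = 4 x - r`, `Y = 8 y + 4 x` from `y² + xy = x³ + a x² + b x` to
`Y² = u (u - A) (u + B)` (`IsShift`) gives an injective homomorphism `shiftHom` on points.
-/

set_option autoImplicit false

namespace FLTAgent.FreyUnramified

open WeierstrassCurve WeierstrassCurve.Affine WeierstrassCurve.Affine.Point

variable {K : Type*} [Field K] [DecidableEq K]

/-- `W` is `y² + xy = x³ + a x² + b x` and `W'` is its translate by the root `r` of the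
completed cubic `X³ + (4 a + 1) X² + 16 b X`. -/
structure IsShift (W W' : WeierstrassCurve.Affine K) (A B r : K) : Prop where
  model : IsModel W' A B
  a₁ : W.a₁ = 1
  a₃ : W.a₃ = 0
  a₆ : W.a₆ = 0
  sum : B - A = 3 * r + (4 * W.a₂ + 1)
  prod : -(A * B) = 3 * r ^ 2 + 2 * r * (4 * W.a₂ + 1) + 16 * W.a₄
  root : r ^ 3 + (4 * W.a₂ + 1) * r ^ 2 + 16 * W.a₄ * r = 0

variable {W W' : WeierstrassCurve.Affine K} {A B r : K}

omit [DecidableEq K] in
lemma IsShift.nonsingular (hs : IsShift W W' A B r) {x y : K} (h : W.Equation x y) :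
    W'.Nonsingular (4 * x - r) (8 * y + 4 * x) := by
  refine hs.model.nonsingular ?_
  rw [Affine.equation_iff, hs.a₁, hs.a₃, hs.a₆] at h
  linear_combination 64 * h - (4 * x - r) ^ 2 * hs.sum - (4 * x - r) * hs.prod + hs.root

/-- The underlying map of `shiftHom`. -/
def shiftFun (hs : IsShift W W' A B r) : W.Point → W'.Point
  | .zero => 0
  | .some x y h => .some (4 * x - r) (8 * y + 4 * x) (hs.nonsingular h.left)

omit [DecidableEq K] in
lemma IsShift.four_ne (hs : IsShift W W' A B r) : (4 : K) ≠ 0 := by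
  rw [show (4 : K) = 2 * 2 by norm_num]
  exact mul_ne_zero hs.model.two_ne hs.model.two_ne

omit [DecidableEq K] in
lemma IsShift.eight_ne (hs : IsShift W W' A B r) : (8 : K) ≠ 0 := by
  rw [show (8 : K) = 2 * 4 by norm_num]
  exact mul_ne_zero hs.model.two_ne hs.four_ne

omit [DecidableEq K] in
lemma IsShift.negY_shift (hs : IsShift W W' A B r) (x y : K) :
    W'.negY (4 * x - r) (8 * y + 4 * x) = 8 * W.negY x y + 4 * x := by
  rw [hs.model.negY_eq, Affine.negY, hs.a₁, hs.a₃]; ring

/-- The isomorphism of groups given by the change of coordinates. -/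
def shiftHom (hs : IsShift W W' A B r) : W.Point →+ W'.Point where
  toFun := shiftFun hs
  map_zero' := rfl
  map_add' := by
    rintro (_ | ⟨x₁, y₁, h₁⟩) (_ | ⟨x₂, y₂, h₂⟩)
    any_goals rfl
    by_cases hxy : x₁ = x₂ ∧ y₁ = W.negY x₂ y₂
    · have e1 : (4 * x₁ - r) = 4 * x₂ - r := by rw [hxy.1]
      have e2 : 8 * y₁ + 4 * x₁ = W'.negY (4 * x₂ - r) (8 * y₂ + 4 * x₂) := by
        rw [hs.negY_shift, hxy.2, hxy.1]
      rw [add_of_Y_eq hxy.1 hxy.2]
      change (0 : W'.Point) = _
      simp only [shiftFun]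
      rw [add_of_Y_eq e1 e2]
    · have hxy' : ¬(4 * x₁ - r = 4 * x₂ - r ∧
          8 * y₁ + 4 * x₁ = W'.negY (4 * x₂ - r) (8 * y₂ + 4 * x₂)) := by
        rintro ⟨e1, e2⟩
        have hx : x₁ = x₂ := mul_left_cancel₀ hs.four_ne (by linear_combination e1)
        refine hxy ⟨hx, mul_left_cancel₀ hs.eight_ne ?_⟩
        rw [hs.negY_shift, hx] at e2
        linear_combination e2
      have hslope : W'.slope (4 * x₁ - r) (4 * x₂ - r) (8 * y₁ + 4 * x₁) (8 * y₂ + 4 * x₂) =
          2 * W.slope x₁ x₂ y₁ y₂ + 1 := by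
        by_cases hx : x₁ = x₂
        · have hy : y₁ ≠ W.negY x₂ y₂ := fun h => hxy ⟨hx, h⟩
          have hy' : 8 * y₁ + 4 * x₁ ≠ W'.negY (4 * x₂ - r) (8 * y₂ + 4 * x₂) := fun h =>
            hxy' ⟨by rw [hx], h⟩
          rw [slope_of_Y_ne (by rw [hx]) hy', slope_of_Y_ne hx hy]
          have hy₁ : y₁ = y₂ := Y_eq_of_Y_ne h₁.left h₂.left hx hy
          rw [← hy₁, ← hx, Affine.negY, hs.a₁, hs.a₃] at hy
          have hd : y₁ - (-y₁ - x₁ * 1 - 0) ≠ 0 := by
            intro h; exact hy (by linear_combination h)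
          have hd2 : y₁ * 2 + x₁ ≠ 0 := by intro h; exact hd (by linear_combination h)
          simp only [Affine.negY, hs.model.a₁, hs.model.a₂, hs.model.a₃, hs.model.a₄, hs.a₁, hs.a₃]
          have hd3 : (8 * y₁ + 4 * x₁ - (-(8 * y₁ + 4 * x₁) - 0 * (4 * x₁ - r) - 0)) ≠ 0 := by
            intro h
            refine mul_ne_zero hs.eight_ne hd2 ?_
            linear_combination h
          have hd4 : y₁ - (-y₁ - 1 * x₁ - 0) ≠ 0 := by
            intro h; exact hd2 (by linear_combination h)
          rw [div_eq_iff hd3]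
          rw [show y₁ - (-y₁ - 1 * x₁ - 0) = y₁ * 2 + x₁ by ring,
            show 8 * y₁ + 4 * x₁ - (-(8 * y₁ + 4 * x₁) - 0 * (4 * x₁ - r) - 0) =
              8 * (y₁ * 2 + x₁) by ring, add_mul, one_mul, ← mul_assoc, mul_right_comm _ _ (8 : K),
            mul_assoc, mul_assoc, div_mul_cancel₀ _ hd2]
          linear_combination (8 * x₁ - 2 * r) * hs.sum + hs.prod
        · rw [slope_of_X_ne (fun h => hx (mul_left_cancel₀ hs.four_ne (by linear_combination h))),
            slope_of_X_ne hx]
          have hd : x₁ - x₂ ≠ 0 := sub_ne_zero_of_ne hx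
          have hd' : 4 * x₁ - r - (4 * x₂ - r) ≠ 0 := by
            rw [show 4 * x₁ - r - (4 * x₂ - r) = 4 * (x₁ - x₂) by ring]
            exact mul_ne_zero hs.four_ne hd
          rw [div_eq_iff hd']
          field_simp
          ring
      rw [add_some hxy]
      simp only [shiftFun]
      rw [add_some hxy', some.injEq]
      have hX : W'.addX (4 * x₁ - r) (4 * x₂ - r) (2 * W.slope x₁ x₂ y₁ y₂ + 1) =
          4 * W.addX x₁ x₂ (W.slope x₁ x₂ y₁ y₂) - r := by
        simp only [Affine.addX, hs.model.a₁, hs.model.a₂, hs.a₁]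
        linear_combination -hs.sum
      refine ⟨by rw [hslope, hX], ?_⟩
      simp only [Affine.addY, Affine.negAddY, hslope, hX, hs.model.negY_eq]
      simp only [Affine.negY, hs.a₁, hs.a₃]
      ring

/-- The change of coordinates on affine points. -/
lemma shiftHom_some (hs : IsShift W W' A B r) {x y : K} (h : W.Nonsingular x y) :
    shiftHom hs (Point.some x y h) =
        Point.some (4 * x - r) (8 * y + 4 * x) (hs.nonsingular h.left) :=
  rfl

/-- The change of coordinates is injective on points. -/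
lemma shiftHom_injective (hs : IsShift W W' A B r) : Function.Injective (shiftHom hs) := by
  rintro (_ | ⟨x₁, y₁, h₁⟩) (_ | ⟨x₂, y₂, h₂⟩) h
  · rfl
  · exact absurd h.symm (some_ne_zero _)
  · exact absurd h (some_ne_zero _)
  · rw [shiftHom_some, shiftHom_some, some.injEq] at h
    have hx : x₁ = x₂ := mul_left_cancel₀ hs.four_ne (by linear_combination h.1)
    subst hx
    have hy : y₁ = y₂ := mul_left_cancel₀ hs.eight_ne (by linear_combination h.2)
    subst hy
    rfl

end FLTAgent.FreyUnramified
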