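import Fermat.Agent.FreyUnramified.Inertia
import Fermat.Agent.FreyUnramified.Transfer
import Fermat.Prelude.Def_FLTPrelim_FreyPackage
import Fermat.Prelude.Def_FLTPrelim_GaloisRep
import Fermat.Prelude.Def_FLTPrelim_Ramification

/-!
# The Frey representation is unramified at odd `q ≠ p`

`freyCurve_galoisRepUnramifiedAt`: the mod `p` Galois representation of the Frey curve is
unramified at every prime `q ∉ {2, p}`. The Frey curve is moved to a model
`Y² = u (u - A) (u + B)` adapted to `q` (`exists_params`, `Transfer`), where `fixed_of_torsion`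
of `Inertia` applies.
-/

set_option autoImplicit false

namespace FLTAgent.FreyUnramified

open WeierstrassCurve WeierstrassCurve.Affine WeierstrassCurve.Affine.Point

local notation "Qbar" => AlgebraicClosure ℚ

/-- The two-torsion model with integral parameters, over `ℚ`. -/
def twoTorsionModel (A B : ℤ) : WeierstrassCurve.Affine ℚ :=
  ⟨0, (B : ℚ) - A, 0, -((A : ℚ) * B), 0⟩

lemma residueChar_of_liesOver (V : ValuationSubring Qbar) {q : ℕ} (hq : q.Prime)
    (hV : V.LiesOverPrime q) : ResidueChar V.valuation q :=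
  ⟨hq, fun n => (V.valuation_le_one_iff _).mpr (intCast_mem V n),
    (V.mem_nonunits_iff).mp hV⟩

lemma isInertial_of_mem (V : ValuationSubring Qbar) {σ : Qbar ≃ₐ[ℚ] Qbar}
    (hσ : σ ∈ V.inertiaSubgroupIn ℚ) : IsInertial V.valuation (σ : Qbar →+* Qbar) := by
  obtain ⟨g, hg, rfl⟩ := hσ
  refine ⟨fun x hx => ?_, fun x hx => ?_⟩
  · have hxV : x ∈ V := (V.valuation_le_one_iff x).mp hx
    have h := RingEquiv.ext_iff.mp (MonoidHom.mem_ker.mp hg) (IsLocalRing.residue V ⟨x, hxV⟩)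
    change g • IsLocalRing.residue V ⟨x, hxV⟩ = IsLocalRing.residue V ⟨x, hxV⟩ at h
    rw [← IsLocalRing.ResidueField.residue_smul, ← sub_eq_zero, ← map_sub,
      IsLocalRing.residue_eq_zero_iff] at h
    exact (V.valuation_lt_one_iff _).mp h
  · by_contra hle
    rw [not_lt] at hle
    have hmem : (g : Qbar ≃ₐ[ℚ] Qbar) x ∈ V := (V.valuation_le_one_iff _).mp hle
    have h2 := (g⁻¹ • (⟨_, hmem⟩ : V)).2
    rw [show ((g⁻¹ • (⟨_, hmem⟩ : V) : V) : Qbar) = x from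
      (g : Qbar ≃ₐ[ℚ] Qbar).symm_apply_apply x] at h2
    exact absurd ((V.valuation_le_one_iff x).mpr h2) (not_le.mpr hx)

variable (P : FreyPackage)

/-- A choice of colliding pair of roots of the Frey cubic, adapted to `q`. -/
lemma exists_params {q : ℕ} (hq : q.Prime) :
    ∃ A B r : ℤ, A ≠ 0 ∧ B ≠ 0 ∧ A + B ≠ 0 ∧
      B - A = 3 * r + (P.b ^ P.p - P.a ^ P.p) ∧
      -(A * B) = 3 * r ^ 2 + 2 * r * (P.b ^ P.p - P.a ^ P.p) - P.a ^ P.p * P.b ^ P.p ∧
      r ^ 3 + (P.b ^ P.p - P.a ^ P.p) * r ^ 2 - P.a ^ P.p * P.b ^ P.p * r = 0 ∧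
      ¬(q : ℤ) ∣ B ∧ ¬(q : ℤ) ∣ A + B ∧
      ((q : ℤ) ∣ A → ∃ a : ℤ, A = a ^ P.p ∨ A = -a ^ P.p) := by
  have hqi := Nat.prime_iff_prime_int.mp hq
  have cop : ∀ {x y : ℤ}, gcd x y = 1 → (q : ℤ) ∣ x → ¬(q : ℤ) ∣ y := fun hg hx hy =>
    hqi.not_dvd_one (hg ▸ dvd_gcd hx hy)
  have dvd_iff : ∀ {x : ℤ}, (q : ℤ) ∣ x ^ P.p ↔ (q : ℤ) ∣ x :=
    fun {x} => ⟨hqi.dvd_of_dvd_pow, fun h => h.trans (dvd_pow_self x P.hp0)⟩
  have hf := P.hFLT
  have ha := pow_ne_zero P.p P.ha0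
  have hb := pow_ne_zero P.p P.hb0
  have hc := pow_ne_zero P.p P.hc0
  by_cases hqc : (q : ℤ) ∣ P.c
  · have hna : ¬(q : ℤ) ∣ P.a := fun h => cop P.hgcdac h hqc
    have hnb : ¬(q : ℤ) ∣ P.b := fun h => cop P.hgcdbc h hqc
    refine ⟨-P.c ^ P.p, P.a ^ P.p, P.a ^ P.p, neg_ne_zero.mpr hc, ha, ?_,
      by linear_combination -hf, by linear_combination -P.a ^ P.p * hf, by ring,
      fun h => hna (dvd_iff.mp h), ?_, fun _ => ⟨P.c, Or.inr rfl⟩⟩
    · rw [show -P.c ^ P.p + P.a ^ P.p = -P.b ^ P.p by linear_combination hf]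
      exact neg_ne_zero.mpr hb
    · rw [show -P.c ^ P.p + P.a ^ P.p = -P.b ^ P.p by linear_combination hf, dvd_neg]
      exact fun h => hnb (dvd_iff.mp h)
  by_cases hqb : (q : ℤ) ∣ P.b
  · have hna : ¬(q : ℤ) ∣ P.a := fun h => cop P.hgcdab h hqb
    refine ⟨-P.b ^ P.p, -P.a ^ P.p, 0, neg_ne_zero.mpr hb, neg_ne_zero.mpr ha, ?_,
      by ring, by ring, by ring, ?_, ?_, fun _ => ⟨P.b, Or.inr rfl⟩⟩
    · rw [show -P.b ^ P.p + -P.a ^ P.p = -P.c ^ P.p by linear_combination -hf]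
      exact neg_ne_zero.mpr hc
    · rw [dvd_neg]; exact fun h => hna (dvd_iff.mp h)
    · rw [show -P.b ^ P.p + -P.a ^ P.p = -P.c ^ P.p by linear_combination -hf, dvd_neg]
      exact fun h => hqc (dvd_iff.mp h)
  · refine ⟨P.a ^ P.p, P.b ^ P.p, 0, ha, hb, hf ▸ hc, by ring, by ring, by ring,
      fun h => hqb (dvd_iff.mp h), ?_, fun _ => ⟨P.a, Or.inl rfl⟩⟩
    rw [hf]
    exact fun h => hqc (dvd_iff.mp h)

/-- The representation on the torsion of the Frey curve is unramified at `q ∉ {2, p}`. -/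
theorem freyCurve_galoisRepUnramifiedAt {q : ℕ} (hq : q.Prime) (hq2 : q ≠ 2) (hqp : q ≠ P.p) :
    P.GaloisRepUnramifiedAt q := by
  intro V hV σ hσ x
  obtain ⟨A, B, r, hA0, hB0, hAB0, h₁, h₂, h₃, hB, hAB, hA⟩ := exists_params P hq
  apply Subtype.ext
  change σ • (x : (P.freyCurve⁄Qbar).Point) = x
  have hK : ∀ n : ℚ, algebraMap ℚ Qbar n = (n : Qbar) := fun n => eq_ratCast _ n
  have hW : IsModel ((twoTorsionModel A B)⁄Qbar).toAffine (A : Qbar) (B : Qbar) := by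
    refine ⟨?_, ?_, ?_, ?_, ?_, two_ne_zero, Int.cast_ne_zero.mpr hA0, Int.cast_ne_zero.mpr hB0,
      by exact_mod_cast hAB0⟩ <;> simp [twoTorsionModel, hK]
  have h₁' := congrArg (Int.cast : ℤ → Qbar) h₁
  have h₂' := congrArg (Int.cast : ℤ → Qbar) h₂
  have h₃' := congrArg (Int.cast : ℤ → Qbar) h₃
  push_cast at h₁' h₂' h₃'
  have hs : IsShift (P.freyCurve⁄Qbar).toAffine ((twoTorsionModel A B)⁄Qbar).toAffine
      (A : Qbar) (B : Qbar) (r : Qbar) := by
    refine ⟨hW, ?_, ?_, ?_, ?_, ?_, ?_⟩ <;> simp [FreyPackage.freyCurve, hK]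
    · linear_combination h₁'
    · linear_combination h₂'
    · linear_combination h₃'
  have hxp : P.p • (x : (P.freyCurve⁄Qbar).Point) = 0 := by
    rw [← natCast_zsmul]
    exact (Submodule.mem_torsionBy_iff _ _).mp x.2
  generalize (x : (P.freyCurve⁄Qbar).Point) = y at hxp
  apply shiftHom_injective hs
  have hcomm :
      shiftHom hs (σ • y) = Point.map (W' := twoTorsionModel A B) σ.toAlgHom (shiftHom hs y) := by
    rcases y with _ | ⟨u, Y, h⟩
    · rfl
    · rw [algEquiv_smul_def, Point.map_some, shiftHom_some, shiftHom_some, Point.map_some,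
        some.injEq]
      constructor <;> simp [map_ofNat]
  rw [hcomm]
  refine fixed_of_torsion (residueChar_of_liesOver V hq hV) hq2 P.pp (by have := P.hp5; omega) hqp
    hW hB hAB hA (isInertial_of_mem V hσ) (Point.map σ.toAlgHom) (fun u Y h => ⟨_, rfl⟩) ?_
  rw [← map_nsmul, hxp, _root_.map_zero]

end FLTAgent.FreyUnramified
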