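import Fermat.Agent.FreyUnramified.Node
import Mathlib.FieldTheory.IsAlgClosed.Basic
import Mathlib.RingTheory.Algebraic.Basic
import Mathlib.RingTheory.Int.Basic
import Mathlib.RingTheory.Multiplicity
import Mathlib.Algebra.Polynomial.AlgebraMap

/-!
# Inertia fixes odd torsion of `Y² = u (u - A) (u + B)`

`fixed_of_torsion`: for a residue characteristic `q ≠ 2, p`, an inertial automorphism
(`IsInertial`) fixes the `p`-torsion points when the reduction is good, or multiplicative with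
`A` up to sign a `p`-th power. Also provides `ResidueChar`, the facts used about a valuation of
residue characteristic `q`.
-/

set_option autoImplicit false

namespace FLTAgent.FreyUnramified

open WeierstrassCurve WeierstrassCurve.Affine WeierstrassCurve.Affine.Point

variable {K : Type*} [Field K]
  {Γ₀ : Type*} [LinearOrderedCommGroupWithZero Γ₀] {v : Valuation K Γ₀} {q : ℕ}

/-- `v` is integral on `ℤ` with residue characteristic `q`. -/
structure ResidueChar (v : Valuation K Γ₀) (q : ℕ) : Prop where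
  prime : q.Prime
  le_one : ∀ n : ℤ, v (n : K) ≤ 1
  lt_one : v (q : K) < 1

lemma ResidueChar.val_int_eq_one (hv : ResidueChar v q) {n : ℤ} (hn : ¬(q : ℤ) ∣ n) :
    v (n : K) = 1 := by
  obtain ⟨a, b, hab⟩ := (Nat.prime_iff_prime_int.mp hv.prime).coprime_iff_not_dvd.mpr hn
  refine le_antisymm (hv.le_one n) ?_
  by_contra hlt
  rw [not_le] at hlt
  have : v ((a : K) * (q : K) + (b : K) * (n : K)) < 1 := by
    refine v.map_add_lt ?_ ?_
    · rw [map_mul]; exact (mul_le_of_le_one_left zero_le (hv.le_one a)).trans_lt hv.lt_one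
    · rw [map_mul]; exact (mul_le_of_le_one_left zero_le (hv.le_one b)).trans_lt hlt
  have e : (a : K) * (q : K) + (b : K) * (n : K) = 1 := by
    exact_mod_cast congrArg (Int.cast : ℤ → K) hab
  rw [e, map_one] at this
  exact lt_irrefl _ this

lemma ResidueChar.val_int_eq_pow (hv : ResidueChar v q) {n : ℤ} (hn : n ≠ 0) :
    ∃ k : ℕ, v (n : K) = v (q : K) ^ k ∧ ((q : ℤ) ∣ n → 0 < k) := by
  have hf : FiniteMultiplicity (q : ℤ) n :=
    Int.finiteMultiplicity_iff.mpr ⟨by simpa using hv.prime.ne_one, hn⟩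
  obtain ⟨m, hm, hndvd⟩ := hf.exists_eq_pow_mul_and_not_dvd
  refine ⟨multiplicity (q : ℤ) n, ?_, fun hd => ?_⟩
  · conv_lhs => rw [hm]
    push_cast
    rw [map_mul, map_pow, hv.val_int_eq_one hndvd, mul_one]
  · by_contra h
    have h0 : multiplicity (q : ℤ) n = 0 := by omega
    rw [h0, pow_zero, one_mul] at hm
    exact hndvd (hm ▸ hd)

variable [CharZero K]

lemma ResidueChar.val_q_pos (hv : ResidueChar v q) : 0 < v (q : K) :=
  pos_of_ne_zero (v.ne_zero_iff.mpr (Nat.cast_ne_zero.mpr hv.prime.ne_zero))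

lemma ResidueChar.val_rat_eq_zpow (hv : ResidueChar v q) {r : ℚ} (hr : r ≠ 0) :
    ∃ k : ℤ, v (r : K) = v (q : K) ^ k := by
  obtain ⟨k₁, h₁, -⟩ := hv.val_int_eq_pow (Rat.num_ne_zero.mpr hr)
  obtain ⟨k₂, h₂, -⟩ := hv.val_int_eq_pow (n := (r.den : ℤ)) (by simp)
  refine ⟨(k₁ : ℤ) - k₂, ?_⟩
  rw [Rat.cast_def, map_div₀, h₁, show ((r.den : ℕ) : K) = ((r.den : ℤ) : K) by simp, h₂,
    zpow_sub₀ hv.val_q_pos.ne', zpow_natCast, zpow_natCast]

open Polynomial in
/-- A positive power of every nonzero absolute value is an integral power of that of `q`. -/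
lemma ResidueChar.exists_pow_eq_zpow (hv : ResidueChar v q) [Algebra ℚ K]
    [Algebra.IsAlgebraic ℚ K] {x : K} (hx : x ≠ 0) :
    ∃ e : ℕ, 0 < e ∧ ∃ n : ℤ, v x ^ e = v (q : K) ^ n := by
  obtain ⟨f, hf0, hf⟩ := Algebra.IsAlgebraic.isAlgebraic (R := ℚ) x
  have hvx : v x ≠ 0 := v.ne_zero_iff.mpr hx
  set g : ℕ → K := fun i => (f.coeff i : K) * x ^ i with hg
  have hsum : ∑ i ∈ f.support, g i = 0 := by
    rw [← hf, aeval_def, eval₂_eq_sum, Polynomial.sum_def]
    exact Finset.sum_congr rfl fun i _ => by rw [hg, eq_ratCast]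
  have hne : ∀ i ∈ f.support, v (g i) ≠ 0 := fun i hi => by
    rw [v.ne_zero_iff, hg]
    exact mul_ne_zero (Rat.cast_ne_zero.mpr (mem_support_iff.mp hi)) (pow_ne_zero _ hx)
  obtain ⟨i₀, hi₀, hmax⟩ := f.support.exists_max_image (fun i => v (g i))
    (nonempty_support_iff.mpr hf0)
  obtain ⟨i, hi, hii, heq⟩ : ∃ i ∈ f.support, i ≠ i₀ ∧ v (g i) = v (g i₀) := by
    by_contra hcon
    push Not at hcon
    have hlt : v (∑ i ∈ f.support.erase i₀, g i) < v (g i₀) :=
      v.map_sum_lt (hne i₀ hi₀) fun i hi => by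
        rw [Finset.mem_erase] at hi
        exact lt_of_le_of_ne (hmax i hi.2) (hcon i hi.2 hi.1)
    have := v.map_add_eq_of_lt_left hlt
    rw [Finset.add_sum_erase _ g hi₀, hsum, _root_.map_zero] at this
    exact hne i₀ hi₀ this.symm
  obtain ⟨k, hk⟩ := hv.val_rat_eq_zpow (mem_support_iff.mp hi)
  obtain ⟨k₀, hk₀⟩ := hv.val_rat_eq_zpow (mem_support_iff.mp hi₀)
  have hq0 : v (q : K) ≠ 0 := hv.val_q_pos.ne'
  simp only [hg, map_mul, map_pow, hk, hk₀] at heq
  have key : v x ^ ((i : ℤ) - i₀) = v (q : K) ^ (k₀ - k) := by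
    rw [zpow_sub₀ hvx, zpow_sub₀ hq0, zpow_natCast, zpow_natCast,
      div_eq_div_iff (pow_ne_zero _ hvx) (zpow_ne_zero _ hq0), mul_comm (v x ^ i), heq]
  rcases lt_or_gt_of_ne hii with h | h
  · refine ⟨i₀ - i, by omega, k - k₀, ?_⟩
    rw [← zpow_natCast, Nat.cast_sub h.le, ← neg_sub (i : ℤ), zpow_neg, key, ← zpow_neg, neg_sub]
  · refine ⟨i - i₀, by omega, k₀ - k, ?_⟩
    rw [← zpow_natCast, Nat.cast_sub h.le, key]

variable [DecidableEq K]

omit [CharZero K] [DecidableEq K] in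
/-- The derivative of the cubic is a unit at the points off the node with small `Y`. -/
lemma smooth_aux {A B u Y : K} (hc : IntCoeff v A B) (hB : v B = 1) (hAB : v (A + B) = 1)
    (hAu : v A = 1 ∨ v u = 1) (he : Y ^ 2 = u * (u - A) * (u + B)) (hu : v u ≤ 1) (hY : v Y < 1)
    (hd : v (3 * u ^ 2 + 2 * (B - A) * u + -(A * B)) < 1) : False := by
  have h1 : v (u - A) ≤ 1 := (v.map_sub _ _).trans (max_le hu hc.hA)
  have h2 : v (u + B) ≤ 1 := v.map_add_le hu hc.hB
  have hprod : v u * v (u - A) * v (u + B) < 1 := by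
    rw [← map_mul, ← map_mul, ← he, map_pow]
    exact pow_lt_one₀ zero_le hY two_ne_zero
  have sm : ∀ {x y : K}, v x ≤ 1 → v y < 1 → v (x * y) < 1 := fun hx hy => by
    rw [map_mul]; exact (mul_le_of_le_one_left zero_le hx).trans_lt hy
  have hd' : 3 * u ^ 2 + 2 * (B - A) * u + -(A * B) =
      (u - A) * (u + B) + (u + B) * u + (u - A) * u := by ring
  rw [hd'] at hd
  rcases lt_or_eq_of_le hu with hu' | hu'
  · have hA : v A = 1 := hAu.resolve_right hu'.ne
    have h1' : v (u - A) = 1 := by rw [v.map_sub_eq_of_lt_right (hA ▸ hu'), hA]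
    have h2' : v (u + B) = 1 := by rw [v.map_add_eq_of_lt_right (hB ▸ hu'), hB]
    have hm : v ((u - A) * (u + B)) = 1 := by rw [map_mul, h1', h2', one_mul]
    rw [add_assoc, v.map_add_eq_of_lt_left (hm ▸ v.map_add_lt (sm h2 hu') (sm h1 hu')), hm] at hd
    exact lt_irrefl _ hd
  rcases lt_or_eq_of_le h1 with h1' | h1'
  · have h2' : v (u + B) = 1 := by
      rw [show u + B = (u - A) + (A + B) by ring, v.map_add_eq_of_lt_right (hAB ▸ h1'), hAB]
    have hm : v ((u + B) * u) = 1 := by rw [map_mul, hu', h2', one_mul]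
    have hs : v ((u - A) * (u + B) + (u - A) * u) < 1 := by
      refine v.map_add_lt ?_ ?_
      · rw [mul_comm]; exact sm h2 h1'
      · rw [mul_comm]; exact sm hu h1'
    rw [show (u - A) * (u + B) + (u + B) * u + (u - A) * u =
      (u + B) * u + ((u - A) * (u + B) + (u - A) * u) by ring,
      v.map_add_eq_of_lt_left (hm ▸ hs), hm] at hd
    exact lt_irrefl _ hd
  have h2' : v (u + B) < 1 := by rwa [hu', h1', one_mul, one_mul] at hprod
  have hm : v ((u - A) * u) = 1 := by rw [map_mul, hu', h1', one_mul]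
  have hs : v ((u - A) * (u + B) + (u + B) * u) < 1 := by
    refine v.map_add_lt (sm h1 h2') ?_
    rw [mul_comm]; exact sm hu h2'
  rw [v.map_add_eq_of_lt_right (hm ▸ hs), hm] at hd
  exact lt_irrefl _ hd

/-- An automorphism in the inertia at `v`. -/
structure IsInertial (v : Valuation K Γ₀) (σ : K →+* K) : Prop where
  sub_lt : ∀ x, v x ≤ 1 → v (σ x - x) < 1
  big : ∀ x, 1 < v x → 1 < v (σ x)

lemma IsInertial.fixed_sqrt {σ : K →+* K} (hσ : IsInertial v σ) {r Y : K} (hr : σ r = r)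
    (hfix : σ Y ^ 2 = Y ^ 2) (h2 : v (2 : K) = 1) (hrY : v Y = v r) : σ Y = Y := by
  rcases sq_eq_sq_iff_eq_or_eq_neg.mp hfix with h | h
  · exact h
  by_cases hr0 : r = 0
  · rw [hr0, _root_.map_zero, v.zero_iff] at hrY
    rw [hrY, _root_.map_zero]
  have hs : v (Y / r) = 1 := by rw [map_div₀ v, hrY, div_self (v.ne_zero_iff.mpr hr0)]
  have := hσ.sub_lt _ hs.le
  rw [map_div₀ σ, hr, h, show -Y / r - Y / r = -(2 * (Y / r)) by ring, v.map_neg, map_mul, h2,
    one_mul, hs] at this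
  exact absurd this (lt_irrefl _)

variable {W : WeierstrassCurve.Affine K}

/-- An inertial automorphism fixes the `p`-torsion when `q ∉ {2, p}` and, if `q` divides `A`,
`A` is up to sign a `p`-th power. -/
theorem fixed_of_torsion [IsAlgClosed K] [Algebra ℚ K] [Algebra.IsAlgebraic ℚ K]
    (hv : ResidueChar v q) (hq2 : q ≠ 2) {p : ℕ} (hp : p.Prime) (hp2 : p ≠ 2) (hqp : q ≠ p)
    {A B : ℤ} (hW : IsModel W (A : K) (B : K)) (hB : ¬(q : ℤ) ∣ B) (hAB : ¬(q : ℤ) ∣ A + B)
    (hA : (q : ℤ) ∣ A → ∃ a : ℤ, A = a ^ p ∨ A = -a ^ p)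
    {σ : K →+* K} (hσ : IsInertial v σ) (τ : W.Point →+ W.Point)
    (hτ : ∀ x y h, ∃ h', τ (Point.some x y h) = Point.some (σ x) (σ y) h')
    {P : W.Point} (hP : p • P = 0) : τ P = P := by
  have h2 : v (2 : K) = 1 := by
    have := hv.val_int_eq_one (n := 2) (by
      intro h
      exact hq2
        ((Nat.prime_dvd_prime_iff_eq hv.prime Nat.prime_two).mp (Int.natCast_dvd_natCast.mp h)))
    simpa using this
  have hpv : v (p : K) = 1 := by
    have := hv.val_int_eq_one (n := (p : ℤ)) (fun h =>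
      hqp ((Nat.prime_dvd_prime_iff_eq hv.prime hp).mp (Int.natCast_dvd_natCast.mp h)))
    simpa using this
  have hBv : v (B : K) = 1 := hv.val_int_eq_one hB
  have hABv : v ((A : K) + B) = 1 := by exact_mod_cast hv.val_int_eq_one hAB
  have hc : IntCoeff v (A : K) (B : K) := ⟨hv.le_one A, hv.le_one B, h2⟩
  -- a smooth point moves by an element reducing to the origin
  have main : ∀ S : W.Point, (∀ u Y h, S = Point.some u Y h → v (A : K) = 1 ∨ 1 ≤ v u) →
      τ S - S ∈ kerReduction hW hc := by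
    rintro (_ | ⟨u, Y, h⟩) hS
    · change τ (0 : W.Point) - 0 ∈ _
      rw [_root_.map_zero, sub_zero]; exact zero_mem _
    obtain ⟨h', he⟩ := hτ u Y h
    rw [he]
    have heq := (hW.equation_iff u Y).mp h.left
    refine sub_mem_kerReduction hW hc h h' (hσ.big u) (hσ.sub_lt u) (fun hu => hσ.sub_lt Y ?_)
      (fun hu hY hd =>
        smooth_aux hc hBv hABv ((hS u Y h rfl).imp_right (le_antisymm hu)) heq hu hY hd)
    have : v Y ^ 2 ≤ 1 := by
      rw [← map_pow, heq, map_mul, map_mul]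
      exact mul_le_one₀ (mul_le_one₀ hu zero_le ((v.map_sub _ _).trans (max_le hu hc.hA)))
        zero_le (v.map_add_le hu hc.hB)
    exact pow_le_one_iff_of_nonneg zero_le two_ne_zero |>.mp this
  -- hence it suffices to find a fixed `R` with `P - R` smooth
  have finish : ∀ P : W.Point, p • P = 0 → ∀ R : W.Point, τ R = R →
      (∀ u Y h, P - R = Point.some u Y h → v (A : K) = 1 ∨ 1 ≤ v u) → τ P = P := by
    intro P hP R hR hS
    have hmem := main (P - R) hS
    rw [map_sub, hR, sub_sub_sub_cancel_right] at hmem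
    exact sub_eq_zero.mp (eq_zero_of_mem_kerReduction hW hc hpv hmem
      (by rw [nsmul_sub, ← map_nsmul, hP, _root_.map_zero, sub_zero]))
  rcases P with _ | ⟨u, Y, h⟩
  · exact _root_.map_zero τ
  by_cases hqA : (q : ℤ) ∣ A
  swap
  · exact finish _ hP 0 (_root_.map_zero τ) fun _ _ _ _ => Or.inl (hv.val_int_eq_one hqA)
  -- multiplicative case
  obtain ⟨β, hβ⟩ := IsAlgClosed.exists_pow_nat_eq (B : K) two_pos
  have hβv : v β = 1 :=
    (pow_eq_one_iff_of_nonneg zero_le two_ne_zero).mp (by rw [← map_pow, hβ, hBv])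
  obtain ⟨a, ha⟩ := hA hqA
  have ha0 : a ≠ 0 := by
    rintro rfl
    refine hW.A_ne ?_
    rcases ha with rfl | rfl <;> simp [zero_pow hp.ne_zero]
  have hqa : (q : ℤ) ∣ a := by
    refine (Nat.prime_iff_prime_int.mp hv.prime).dvd_of_dvd_pow (n := p) ?_
    rcases ha with rfl | rfl
    · exact hqA
    · exact (dvd_neg).mp hqA
  obtain ⟨j, hj, hjpos⟩ := hv.val_int_eq_pow ha0
  replace hjpos := hjpos hqa
  have hAv : v (A : K) = v (q : K) ^ (p * j) := by
    rw [mul_comm, pow_mul, ← hj, ← map_pow]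
    rcases ha with rfl | rfl <;> simp
  have hAlt : v (A : K) < 1 := by
    rw [hAv]; exact pow_lt_one₀ zero_le hv.lt_one (Nat.mul_ne_zero hp.ne_zero hjpos.ne')
  have hn : NodeData v (A : K) (B : K) β := ⟨hc, hAlt, hβ, hβv⟩
  by_cases hu1 : 1 ≤ v u
  · refine finish _ hP 0 (_root_.map_zero τ) fun u' Y' h' he => Or.inr ?_
    rw [sub_zero, some.injEq] at he
    exact he.1 ▸ hu1
  rw [not_le] at hu1
  have hAu := val_A_lt_of_torsion hW hn (hp.odd_of_ne_two hp2) h hP
  have hu0 : u ≠ 0 := v.ne_zero_iff.mp (lt_of_le_of_lt zero_le hAu).ne'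
  obtain ⟨e, he, n, hen⟩ := hv.exists_pow_eq_zpow hu0
  obtain ⟨t, ht⟩ := IsAlgClosed.exists_pow_nat_eq (q : K) he
  have hte : v t ^ e = v (q : K) := by rw [← map_pow, ht]
  have hvt : v t < 1 := by
    by_contra hh
    rw [not_lt] at hh
    exact absurd hv.lt_one (not_lt.mpr (hte ▸ one_le_pow₀ hh))
  have hvt0 : 0 < v t := by
    refine pos_of_ne_zero fun hh => hv.val_q_pos.ne' ?_
    rw [← hte, hh, zero_pow he.ne']
  obtain ⟨m, rfl⟩ : ∃ m : ℕ, n = m := by
    refine ⟨n.toNat, (Int.toNat_of_nonneg ?_).symm⟩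
    by_contra hh
    have h1 : v u ^ e < 1 := pow_lt_one₀ zero_le hu1 he.ne'
    rw [hen] at h1
    exact absurd h1 (not_lt.mpr (one_le_zpow_of_nonpos₀ hv.val_q_pos hv.lt_one.le (by omega)))
  rw [zpow_natCast, ← hte, ← pow_mul, mul_comm, pow_mul] at hen
  have hum : v u = v t ^ m := (pow_left_inj₀ zero_le zero_le he.ne').mp hen
  have hM : v t ^ (e * (p * j)) = v (A : K) := by rw [hAv, pow_mul, hte]
  have hmpos : 0 < m := by
    by_contra hh
    rw [show m = 0 by omega, pow_zero] at hum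
    exact hu1.ne hum
  have hmM : m < e * (p * j) := by
    by_contra hh
    rw [not_lt] at hh
    rw [← hM, hum] at hAu
    exact absurd hAu (not_lt.mpr (pow_le_pow_of_le_one zero_le hvt.le hh))
  have hM2 : 2 ≤ e * (p * j) :=
    le_trans hp.two_le ((Nat.le_mul_of_pos_right p hjpos).trans (Nat.le_mul_of_pos_left _ he))
  suffices H : ∀ Q : W.Point, OnBranch v β (v u) Q → p • Q = 0 → τ Q = Q by
    rcases exists_onBranch_or_neg hW hn h hAu hu1 with hb | hb
    · exact H _ hb hP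
    · have h1 := H _ hb (by rw [neg_nsmul, hP, _root_.neg_zero])
      rwa [_root_.map_neg, neg_inj] at h1
  intro Q hQ hpQ
  rw [hum] at hQ
  have hdvd := two_mul_dvd_of_torsion hW hn hvt hM hM2 hmpos hmM hQ hpQ
  obtain ⟨l, hl⟩ : e * (2 * j) ∣ m :=
    Nat.dvd_of_mul_dvd_mul_left hp.pos (by rwa [show p * (e * (2 * j)) = 2 * (e * (p * j)) by ring])
  set k := 2 * j * l with hk
  have hmk : v t ^ m = v ((q : K) ^ k) := by rw [map_pow, ← hte, ← pow_mul, hk, hl, mul_assoc]
  rw [hmk] at hQ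
  set r := (q : K) ^ k with hrdef
  have hr : σ r = r := by rw [hrdef, map_pow, map_natCast]
  have hrA : v (A : K) < v r := by rw [← hmk, ← hum]; exact hAu
  have hr1 : v r < 1 := by rw [← hmk, ← hum]; exact hu1
  obtain ⟨S, hS⟩ := IsAlgClosed.exists_pow_nat_eq (r * (r - (A : K)) * (r + B)) two_pos
  have hσS : σ S ^ 2 = S ^ 2 := by
    rw [← map_pow, hS]
    simp [hr]
  have hvS : v S = v r := by
    refine (pow_left_inj₀ zero_le zero_le two_ne_zero).mp ?_
    rw [← map_pow, hS, map_mul, map_mul, v.map_sub_eq_of_lt_left hrA,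
      v.map_add_eq_of_lt_right (hBv ▸ hr1), hBv, mul_one, pow_two]
  have hns : W.Nonsingular r S := hW.nonsingular hS
  have hτS : τ (Point.some r S hns) = Point.some r S hns := by
    obtain ⟨h', he'⟩ := hτ r S hns
    rw [he', some.injEq]
    exact ⟨hr, hσ.fixed_sqrt hr hσS h2 hvS⟩
  rcases exists_onBranch_or_neg hW hn hns hrA hr1 with hb | hb
  · exact finish Q hpQ _ hτS fun u' Y' h' he' =>
      Or.inr ((hQ.sub_mem hW hn hb) u' Y' h' he')
  · exact finish Q hpQ (-Point.some r S hns) (by rw [_root_.map_neg, hτS]) fun u' Y' h' he' =>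
      Or.inr ((hQ.sub_mem hW hn hb) u' Y' h' he')

end FLTAgent.FreyUnramified
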