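import Mathlib.AlgebraicGeometry.EllipticCurve.Affine.Point
import Mathlib.RingTheory.Valuation.Basic
import Mathlib.Tactic.LinearCombination

/-!
# The group law of `Y² = u (u - A) (u + B)` over a valued field

Vieta relations of collinear points (`Triple`, `add_triple`) give the valuation estimates behind
the subgroups `kerReduction` (points reducing to the origin) and `offNode` (points not reducing to
the node). The kernel of reduction has no torsion of order prime to the residue characteristic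
(`eq_zero_of_mem_kerReduction`).
-/

set_option autoImplicit false


namespace FLTAgent.FreyUnramified

open WeierstrassCurve WeierstrassCurve.Affine WeierstrassCurve.Affine.Point

variable {K : Type*} [Field K]

/-- The Weierstrass curve `W` is `Y² = u (u - A) (u + B)`, with three distinct roots. -/
structure IsModel (W : WeierstrassCurve.Affine K) (A B : K) : Prop where
  a₁ : W.a₁ = 0
  a₂ : W.a₂ = B - A
  a₃ : W.a₃ = 0
  a₄ : W.a₄ = -(A * B)
  a₆ : W.a₆ = 0
  two_ne : (2 : K) ≠ 0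
  A_ne : A ≠ 0
  B_ne : B ≠ 0
  AB_ne : A + B ≠ 0

variable {W : WeierstrassCurve.Affine K} {A B : K}

/-- The equation of the cubic model `Y² = u (u - A) (u + B)`. -/
lemma IsModel.equation_iff (hW : IsModel W A B) (u Y : K) :
    W.Equation u Y ↔ Y ^ 2 = u * (u - A) * (u + B) := by
  rw [Affine.equation_iff, hW.a₁, hW.a₂, hW.a₃, hW.a₄, hW.a₆]
  constructor <;> intro h <;> linear_combination h

lemma IsModel.Δ_ne (hW : IsModel W A B) : W.Δ ≠ 0 := by
  have h : W.Δ = 2 ^ 4 * A ^ 2 * B ^ 2 * (A + B) ^ 2 := by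
    simp only [WeierstrassCurve.Δ, WeierstrassCurve.b₂, WeierstrassCurve.b₄,
      WeierstrassCurve.b₆, WeierstrassCurve.b₈]
    rw [hW.a₁, hW.a₂, hW.a₃, hW.a₄, hW.a₆]
    ring
  rw [h]
  exact mul_ne_zero (mul_ne_zero (mul_ne_zero (pow_ne_zero _ hW.two_ne) (pow_ne_zero _ hW.A_ne))
    (pow_ne_zero _ hW.B_ne)) (pow_ne_zero _ hW.AB_ne)

lemma IsModel.nonsingular (hW : IsModel W A B) {u Y : K}
    (h : Y ^ 2 = u * (u - A) * (u + B)) : W.Nonsingular u Y :=
  (Affine.equation_iff_nonsingular_of_Δ_ne_zero hW.Δ_ne).mp ((hW.equation_iff u Y).mpr h)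

/-- On the cubic model negation changes the sign of `Y`. -/
lemma IsModel.negY_eq (hW : IsModel W A B) (u Y : K) : W.negY u Y = -Y := by
  rw [Affine.negY, hW.a₁, hW.a₃]; ring

/-- Vieta relations for three collinear points of `Y² = u (u - A) (u + B)`. -/
structure Triple (A B u₁ Y₁ u₂ Y₂ u₃ Y₃ l μ : K) : Prop where
  e₁ : u₁ + u₂ + u₃ = l ^ 2 - (B - A)
  e₂ : u₁ * u₂ + u₃ * (u₁ + u₂) = -(A * B) - 2 * l * μ
  e₃ : u₁ * u₂ * u₃ = μ ^ 2
  y₁ : Y₁ = l * u₁ + μ
  y₂ : Y₂ = l * u₂ + μ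
  y₃ : Y₃ = l * u₃ + μ

lemma add_triple [DecidableEq K] (hW : IsModel W A B) {u₁ Y₁ u₂ Y₂ : K}
    (h₁ : W.Nonsingular u₁ Y₁) (h₂ : W.Nonsingular u₂ Y₂) (hne : ¬(u₁ = u₂ ∧ Y₁ = -Y₂)) :
    ∃ (u₃ Y₃ l μ : K) (h₃ : W.Nonsingular u₃ (-Y₃)),
      (Point.some u₁ Y₁ h₁ + Point.some u₂ Y₂ h₂ : W.Point) = Point.some u₃ (-Y₃) h₃ ∧
        Triple A B u₁ Y₁ u₂ Y₂ u₃ Y₃ l μ := by
  have hne' : ¬(u₁ = u₂ ∧ Y₁ = W.negY u₂ Y₂) := by rwa [hW.negY_eq]
  have hadd := Point.add_some (h₁ := h₁) (h₂ := h₂) hne'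
  have hpoly := addPolynomial_slope h₁.left h₂.left hne'
  set l := W.slope u₁ u₂ Y₁ Y₂ with hl
  set u₃ := W.addX u₁ u₂ l with hu₃
  rw [addPolynomial_eq, neg_inj, Cubic.prod_X_sub_C_eq, Cubic.toPoly_injective] at hpoly
  have ea := congrArg Cubic.b hpoly
  have eb := congrArg Cubic.c hpoly
  have ec := congrArg Cubic.d hpoly
  simp only [hW.a₁, hW.a₂, hW.a₃, hW.a₄, hW.a₆] at ea eb ec
  have hy₂ : Y₂ = l * u₂ + (Y₁ - l * u₁) := by
    by_cases hx : u₁ = u₂
    · rw [← Y_eq_of_Y_ne h₁.left h₂.left hx (fun h => hne' ⟨hx, h⟩), hx]; ring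
    · have hs : l * (u₁ - u₂) = Y₁ - Y₂ := by
        rw [hl, slope_of_X_ne hx, div_mul_cancel₀ _ (sub_ne_zero_of_ne hx)]
      linear_combination hs
  have hy₃ : W.addY u₁ u₂ Y₁ l = -(l * u₃ + (Y₁ - l * u₁)) := by
    rw [Affine.addY, Affine.negAddY, hW.negY_eq, ← hu₃]; ring
  rw! [hy₃] at hadd
  refine ⟨u₃, l * u₃ + (Y₁ - l * u₁), l, Y₁ - l * u₁, _, hadd, ?_, ?_, ?_, by ring, hy₂, rfl⟩
  · linear_combination ea
  · linear_combination -eb
  · linear_combination ec

section Valued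

variable {Γ₀ : Type*} [LinearOrderedCommGroupWithZero Γ₀] {v : Valuation K Γ₀}

/-- Integrality hypotheses on the coefficients. -/
structure IntCoeff (v : Valuation K Γ₀) (A B : K) : Prop where
  hA : v A ≤ 1
  hB : v B ≤ 1
  h2 : v (2 : K) = 1

lemma lt_of_pow_two_lt {a b : Γ₀} (h : a ^ 2 < b ^ 2) : a < b :=
  lt_of_pow_lt_pow_left₀ 2 zero_le h

lemma val_mul_le_of_le_one {x y : K} {g : Γ₀} (hx : v x ≤ 1) (hy : v y ≤ g) : v (x * y) ≤ g := by
  rw [map_mul]; exact mul_le_of_le_one_of_le hx hy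

/-- The middle coefficient of an integral model is integral. -/
lemma IntCoeff.a₂_le (h : IntCoeff v A B) : v (B - A) ≤ 1 :=
  (v.map_sub B A).trans (max_le h.hB h.hA)

/-- The third intersection cannot be strictly smaller than both points and their product when
`A * B` is smaller than that product. -/
lemma Triple.not_small {u₁ Y₁ u₂ Y₂ u₃ Y₃ l μ : K} (ht : Triple A B u₁ Y₁ u₂ Y₂ u₃ Y₃ l μ)
    (hc : IntCoeff v A B) (h31 : v u₃ < v u₁) (h32 : v u₃ < v u₂) (h3 : v u₃ < v (u₁ * u₂))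
    (hAB : v (A * B) < v (u₁ * u₂)) : False := by
  have hpos : 0 < v (u₁ * u₂) := lt_of_le_of_lt zero_le h3
  have hl : v l ^ 2 ≤ max (max (v u₁) (v u₂)) (max (v u₃) 1) := by
    have h : l ^ 2 = (u₁ + u₂) + u₃ + (B - A) := by linear_combination -ht.e₁
    rw [← map_pow, h]
    refine v.map_add_le (v.map_add_le (v.map_add_le ?_ ?_) ?_) ?_
    · exact le_max_of_le_left (le_max_left _ _)
    · exact le_max_of_le_left (le_max_right _ _)
    · exact le_max_of_le_right (le_max_left _ _)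
    · exact le_max_of_le_right (le_max_of_le_right hc.a₂_le)
  have h13 : v u₁ * v u₃ < v (u₁ * u₂) := by
    rw [map_mul]; exact mul_lt_mul_of_pos_left h32 (lt_of_le_of_lt zero_le h31)
  have h23 : v u₂ * v u₃ < v (u₁ * u₂) := by
    rw [map_mul, mul_comm (v u₁)]; exact mul_lt_mul_of_pos_left h31 (lt_of_le_of_lt zero_le h32)
  have h33 : v u₃ * v u₃ < v (u₁ * u₂) := by
    rw [map_mul]
    calc v u₃ * v u₃ ≤ v u₁ * v u₃ := mul_le_mul' h31.le le_rfl
      _ < v u₁ * v u₂ := mul_lt_mul_of_pos_left h32 (lt_of_le_of_lt zero_le h31)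
  have hM : max (max (v u₁) (v u₂)) (max (v u₃) 1) * v u₃ < v (u₁ * u₂) := by
    rcases max_choice (max (v u₁) (v u₂)) (max (v u₃) 1) with h | h <;> rw [h]
    · rcases max_choice (v u₁) (v u₂) with h' | h' <;> rw [h'] <;> assumption
    · rcases max_choice (v u₃) 1 with h' | h' <;> rw [h']
      · exact h33
      · rwa [one_mul]
  have hlm : v (2 * l * μ) < v (u₁ * u₂) := by
    rw [map_mul, map_mul, hc.h2, one_mul]
    apply lt_of_pow_two_lt
    rw [mul_pow, ← map_pow v μ, ← ht.e₃, map_mul v (u₁ * u₂) u₃, pow_two (v (u₁ * u₂))]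
    calc v l ^ 2 * (v (u₁ * u₂) * v u₃)
        ≤ max (max (v u₁) (v u₂)) (max (v u₃) 1) * (v (u₁ * u₂) * v u₃) := mul_le_mul' hl le_rfl
      _ = max (max (v u₁) (v u₂)) (max (v u₃) 1) * v u₃ * v (u₁ * u₂) := by ac_rfl
      _ < v (u₁ * u₂) * v (u₁ * u₂) := mul_lt_mul_of_pos_right hM hpos
  have : v (u₁ * u₂) < v (u₁ * u₂) := by
    have h : u₁ * u₂ = -(A * B) - 2 * l * μ - (u₁ * u₃ + u₂ * u₃) := by linear_combination ht.e₂
    calc v (u₁ * u₂) = v (-(A * B) - 2 * l * μ - (u₁ * u₃ + u₂ * u₃)) := congrArg v h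
      _ < v (u₁ * u₂) := by
        refine v.map_sub_lt (v.map_sub_lt ?_ hlm) (v.map_add_lt ?_ ?_)
        · rwa [v.map_neg]
        · rwa [map_mul]
        · rwa [map_mul v u₂ u₃]
  exact lt_irrefl _ this

/-- The third intersection of a line through two points reducing to infinity reduces to infinity. -/
lemma Triple.one_lt {u₁ Y₁ u₂ Y₂ u₃ Y₃ l μ : K} (ht : Triple A B u₁ Y₁ u₂ Y₂ u₃ Y₃ l μ)
    (hc : IntCoeff v A B) (h₁ : 1 < v u₁) (h₂ : 1 < v u₂) : 1 < v u₃ := by
  by_contra h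
  rw [not_lt] at h
  have h12 : 1 < v (u₁ * u₂) := by rw [map_mul]; exact one_lt_mul_of_lt_of_le h₁ h₂.le
  exact ht.not_small hc (h.trans_lt h₁) (h.trans_lt h₂) (h.trans_lt h12)
    ((val_mul_le_of_le_one hc.hA hc.hB).trans_lt h12)

lemma Triple.one_le {u₁ Y₁ u₂ Y₂ u₃ Y₃ l μ : K} (ht : Triple A B u₁ Y₁ u₂ Y₂ u₃ Y₃ l μ)
    (hc : IntCoeff v A B) (hA : v A < 1) (h₁ : 1 ≤ v u₁) (h₂ : 1 ≤ v u₂) : 1 ≤ v u₃ := by
  by_contra h
  rw [not_le] at h
  have h12 : 1 ≤ v (u₁ * u₂) := by rw [map_mul]; exact one_le_mul h₁ h₂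
  refine ht.not_small hc (h.trans_le h₁) (h.trans_le h₂) (h.trans_le h12) (lt_of_lt_of_le ?_ h12)
  rw [map_mul]
  exact (mul_le_of_le_one_right zero_le hc.hB).trans_lt hA

section Subgroups

variable [DecidableEq K]

/-- Points reducing to the origin. -/
def kerReduction (hW : IsModel W A B) (hc : IntCoeff v A B) : AddSubgroup W.Point where
  carrier := {P | ∀ u Y h, P = Point.some u Y h → 1 < v u}
  zero_mem' := by intro u Y h hP; exact absurd hP.symm (some_ne_zero h)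
  neg_mem' := by
    rintro (_ | ⟨u, Y, h⟩) hP u' Y' h' he
    · exact hP u' Y' h' he
    · rw [neg_some, some.injEq] at he
      exact he.1 ▸ hP u Y h rfl
  add_mem' := by
    rintro (_ | ⟨u₁, Y₁, h₁⟩) (_ | ⟨u₂, Y₂, h₂⟩) hP hQ u Y h he
    · exact hP u Y h he
    · exact hQ u Y h ((zero_add _).symm.trans he)
    · exact hP u Y h ((add_zero _).symm.trans he)
    · by_cases hne : u₁ = u₂ ∧ Y₁ = -Y₂
      · rw [add_of_Y_eq hne.1 (by rw [hW.negY_eq]; exact hne.2)] at he
        exact absurd he.symm (some_ne_zero h)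
      · obtain ⟨u₃, Y₃, l, μ, h₃, hadd, ht⟩ := add_triple hW h₁ h₂ hne
        rw [hadd, some.injEq] at he
        exact he.1 ▸ ht.one_lt hc (hP u₁ Y₁ h₁ rfl) (hQ u₂ Y₂ h₂ rfl)

/-- Points not reducing to the node `(0, 0)`. -/
def offNode (hW : IsModel W A B) (hc : IntCoeff v A B) (hA : v A < 1) :
    AddSubgroup W.Point where
  carrier := {P | ∀ u Y h, P = Point.some u Y h → 1 ≤ v u}
  zero_mem' := by intro u Y h hP; exact absurd hP.symm (some_ne_zero h)
  neg_mem' := by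
    rintro (_ | ⟨u, Y, h⟩) hP u' Y' h' he
    · exact hP u' Y' h' he
    · rw [neg_some, some.injEq] at he
      exact he.1 ▸ hP u Y h rfl
  add_mem' := by
    rintro (_ | ⟨u₁, Y₁, h₁⟩) (_ | ⟨u₂, Y₂, h₂⟩) hP hQ u Y h he
    · exact hP u Y h he
    · exact hQ u Y h ((zero_add _).symm.trans he)
    · exact hP u Y h ((add_zero _).symm.trans he)
    · by_cases hne : u₁ = u₂ ∧ Y₁ = -Y₂
      · rw [add_of_Y_eq hne.1 (by rw [hW.negY_eq]; exact hne.2)] at he
        exact absurd he.symm (some_ne_zero h)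
      · obtain ⟨u₃, Y₃, l, μ, h₃, hadd, ht⟩ := add_triple hW h₁ h₂ hne
        rw [hadd, some.injEq] at he
        exact he.1 ▸ ht.one_le hc hA (hP u₁ Y₁ h₁ rfl) (hQ u₂ Y₂ h₂ rfl)

lemma mem_kerReduction {hW : IsModel W A B} {hc : IntCoeff v A B} {u Y : K}
    (h : W.Nonsingular u Y) : Point.some u Y h ∈ kerReduction hW hc ↔ 1 < v u :=
  ⟨fun hP => hP u Y h rfl, fun hu u' Y' h' he => by rw [some.injEq] at he; exact he.1 ▸ hu⟩

/-- An affine point is off the node iff its coordinate `u` has valuation `≥ 1`. -/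
lemma mem_offNode {hW : IsModel W A B} {hc : IntCoeff v A B} {hA : v A < 1} {u Y : K}
    (h : W.Nonsingular u Y) : Point.some u Y h ∈ offNode hW hc hA ↔ 1 ≤ v u :=
  ⟨fun hP => hP u Y h rfl, fun hu u' Y' h' he => by rw [some.injEq] at he; exact he.1 ▸ hu⟩

/-- The parameter at the origin. -/
def zCoord : W.Point → K
  | .zero => 0
  | .some u Y _ => u / Y

omit [DecidableEq K] in
@[simp] lemma zCoord_zero : zCoord (0 : W.Point) = 0 := rfl

omit [DecidableEq K] in
lemma zCoord_some {u Y : K} (h : W.Nonsingular u Y) : zCoord (Point.some u Y h) = u / Y := rfl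

omit [DecidableEq K] in
lemma val_Y_sq (hW : IsModel W A B) (hc : IntCoeff v A B) {u Y : K} (h : W.Nonsingular u Y)
    (hu : 1 < v u) : v Y ^ 2 = v u ^ 3 := by
  have he := (hW.equation_iff u Y).mp h.left
  rw [← map_pow, he, map_mul, map_mul, v.map_sub_eq_of_lt_left (hc.hA.trans_lt hu),
    v.map_add_eq_of_lt_left (hc.hB.trans_lt hu), pow_three, mul_assoc]

lemma zCoord_sum_lt (hW : IsModel W A B) (hc : IntCoeff v A B) {P Q : W.Point}
    (hP : P ∈ kerReduction hW hc) (hQ : Q ∈ kerReduction hW hc) (hP0 : P ≠ 0) :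
    v (zCoord (P + Q) - zCoord P - zCoord Q) < v (zCoord P) := by
  rcases P with _ | ⟨u₁, Y₁, h₁⟩
  · exact absurd rfl hP0
  have hu₁ := (mem_kerReduction h₁).mp hP
  have hY₁ : v Y₁ ^ 2 = v u₁ ^ 3 := val_Y_sq hW hc h₁ hu₁
  have hu₁0 : 0 < v u₁ := zero_lt_one.trans hu₁
  have hz : 0 < v (u₁ / Y₁) := by
    rw [map_div₀]
    refine div_pos hu₁0 (pos_of_ne_zero fun h => ?_)
    rw [h] at hY₁
    exact absurd hY₁.symm (by simpa using pow_ne_zero 3 hu₁0.ne')
  rw [zCoord_some]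
  rcases Q with _ | ⟨u₂, Y₂, h₂⟩
  · change v (zCoord (Point.some u₁ Y₁ h₁ + 0) - _ - zCoord (0 : W.Point)) < _
    rw [add_zero, zCoord_some, sub_self, zCoord_zero, sub_zero, _root_.map_zero]
    exact hz
  have hu₂ := (mem_kerReduction h₂).mp hQ
  by_cases hne : u₁ = u₂ ∧ Y₁ = -Y₂
  · rw [add_of_Y_eq hne.1 (by rw [hW.negY_eq]; exact hne.2)]
    rw [zCoord_zero, zCoord_some, hne.1, hne.2, div_neg, zero_sub, neg_neg, sub_self,
      _root_.map_zero]
    have := hz
    rwa [hne.1, hne.2, div_neg] at this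
  · obtain ⟨u₃, Y₃, l, μ, h₃, hadd, ht⟩ := add_triple hW h₁ h₂ hne
    have hu₃ := ht.one_lt hc hu₁ hu₂
    rw [hadd, zCoord_some, zCoord_some]
    have hY₂ := val_Y_sq hW hc h₂ hu₂
    have hY₃ := val_Y_sq hW hc h₃ hu₃
    rw [v.map_neg] at hY₃
    have ne_of : ∀ {u Y : K}, v Y ^ 2 = v u ^ 3 → 1 < v u → Y ≠ 0 := by
      intro u Y h hu hY
      rw [hY, _root_.map_zero, zero_pow two_ne_zero] at h
      exact pow_ne_zero 3 (zero_lt_one.trans hu).ne' h.symm
    have n₁ := ne_of hY₁ hu₁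
    have n₂ := ne_of hY₂ hu₂
    have n₃ := ne_of hY₃ hu₃
    -- size of `μ`
    have hμ2 : v μ ^ 2 = v u₁ * v u₂ * v u₃ := by rw [← map_pow, ← ht.e₃, map_mul, map_mul]
    have h12 : 1 < v u₁ * v u₂ := one_lt_mul_of_lt_of_le hu₁ hu₂.le
    have hμ : 1 < v μ := by
      apply lt_of_pow_two_lt
      rw [one_pow, hμ2]
      exact one_lt_mul_of_lt_of_le h12 hu₃.le
    have hl : v l < v μ := by
      apply lt_of_pow_two_lt
      rw [hμ2, ← map_pow, show l ^ 2 = u₁ + u₂ + u₃ + (B - A) by linear_combination -ht.e₁]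
      have k3 : v u₃ < v u₁ * v u₂ * v u₃ := lt_mul_of_one_lt_left (zero_lt_one.trans hu₃) h12
      have k12 : v u₁ * v u₂ < v u₁ * v u₂ * v u₃ :=
        lt_mul_of_one_lt_right (zero_lt_one.trans h12) hu₃
      refine v.map_add_lt (v.map_add_lt (v.map_add_lt ?_ ?_) k3) ?_
      · exact (le_mul_of_one_le_right' hu₂.le).trans_lt k12
      · exact (le_mul_of_one_le_left' hu₁.le).trans_lt k12
      · exact hc.a₂_le.trans_lt (h12.trans k12)
    -- the identity
    set den := μ ^ 2 - (B - A) * l * μ + -(A * B) * l ^ 2 with hdendef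
    set num := 2 * -(A * B) * l - (B - A) * μ with hnumdef
    have hden : v den = v μ ^ 2 := by
      have hμ0 : 0 < v μ := zero_lt_one.trans hμ
      have key : v (-((B - A) * l * μ) + -(A * B) * l ^ 2) < v μ ^ 2 := by
        refine v.map_add_lt ?_ ?_
        · rw [v.map_neg, map_mul, map_mul, pow_two]
          exact mul_lt_mul_of_pos_right ((mul_le_of_le_one_left zero_le hc.a₂_le).trans_lt hl) hμ0
        · rw [map_mul, v.map_neg, map_pow]
          exact (mul_le_of_le_one_left zero_le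
            (val_mul_le_of_le_one hc.hA hc.hB)).trans_lt (pow_lt_pow_left₀ hl zero_le two_ne_zero)
      rw [hdendef, sub_eq_add_neg, add_assoc, v.map_add_eq_of_lt_left (by rwa [map_pow]), map_pow]
    have hnum : v num ≤ v μ := by
      refine (v.map_sub _ _).trans (max_le ?_ ?_)
      · rw [map_mul, map_mul, v.map_neg, hc.h2, one_mul]
        exact (mul_le_of_le_one_left zero_le (val_mul_le_of_le_one hc.hA hc.hB)).trans hl.le
      · rw [map_mul]; exact mul_le_of_le_one_left zero_le hc.a₂_le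
    have hid : (u₁ / Y₁ + u₂ / Y₂ + u₃ / Y₃) * den = num := by
      have hY : Y₁ * Y₂ * Y₃ = μ * den := by
        rw [hdendef, ht.y₁, ht.y₂, ht.y₃]
        linear_combination l ^ 3 * ht.e₃ + l ^ 2 * μ * ht.e₂ + l * μ ^ 2 * ht.e₁
      have hN : u₁ * Y₂ * Y₃ + u₂ * Y₁ * Y₃ + u₃ * Y₁ * Y₂ = μ * num := by
        rw [hnumdef, ht.y₁, ht.y₂, ht.y₃]
        linear_combination 3 * l ^ 2 * ht.e₃ + 2 * l * μ * ht.e₂ + μ ^ 2 * ht.e₁
      have hμ0 : μ ≠ 0 := by
        intro h; rw [h, _root_.map_zero] at hμ; exact absurd hμ (not_lt.mpr zero_le)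
      have hd0 : den ≠ 0 := by
        intro h; rw [h, _root_.map_zero] at hden
        exact pow_ne_zero 2 (zero_lt_one.trans hμ).ne' hden.symm
      field_simp
      linear_combination den * hN - num * hY
    have hsum : v (u₁ / Y₁ + u₂ / Y₂ + u₃ / Y₃) * v μ ≤ 1 := by
      have h := congrArg v hid
      rw [map_mul, hden, pow_two, ← mul_assoc] at h
      have := hnum
      rw [← h] at this
      exact (mul_le_iff_le_one_left (zero_lt_one.trans hμ)).mp this
    have hbig : 1 < v (u₁ / Y₁) * v μ := by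
      apply lt_of_pow_two_lt
      rw [one_pow, mul_pow, map_div₀, div_pow, hY₁, hμ2]
      have h23 : 1 < v u₂ * v u₃ := one_lt_mul_of_lt_of_le hu₂ hu₃.le
      calc (1 : Γ₀) < v u₂ * v u₃ := h23
        _ = _ := by field_simp [hu₁0.ne']
    rw [show u₃ / -Y₃ - u₁ / Y₁ - u₂ / Y₂ = -(u₁ / Y₁ + u₂ / Y₂ + u₃ / Y₃) by rw [div_neg]; ring,
      v.map_neg]
    exact lt_of_mul_lt_mul_right (hsum.trans_lt hbig) zero_le

lemma eq_zero_of_mem_kerReduction (hW : IsModel W A B) (hc : IntCoeff v A B) {P : W.Point}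
    {n : ℕ} (hn : v (n : K) = 1) (hP : P ∈ kerReduction hW hc) (hnP : n • P = 0) : P = 0 := by
  by_contra hP0
  have hz0 : v (zCoord P) ≠ 0 := by
    intro h
    have := zCoord_sum_lt hW hc hP (zero_mem _) hP0
    rw [h] at this
    exact not_lt_zero this
  have key : ∀ k : ℕ, v (zCoord (k • P) - (k : K) * zCoord P) < v (zCoord P) := by
    intro k
    induction k with
    | zero => simpa using pos_of_ne_zero hz0
    | succ k ih =>
      have hs := zCoord_sum_lt hW hc hP (nsmul_mem hP k) hP0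
      have := v.map_add_lt hs ih
      rw [succ_nsmul']
      convert this using 2
      push_cast; ring
  have := key n
  rw [hnP, zCoord_zero, zero_sub, v.map_neg, map_mul, hn, one_mul] at this
  exact lt_irrefl _ this

/-- If two points have the same reduction and that reduction is nonsingular, their difference
reduces to the origin. -/
lemma sub_mem_kerReduction (hW : IsModel W A B) (hc : IntCoeff v A B) {u Y u' Y' : K}
    (h : W.Nonsingular u Y) (h' : W.Nonsingular u' Y')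
    (hbig : 1 < v u → 1 < v u')
    (hu : v u ≤ 1 → v (u' - u) < 1) (hY : v u ≤ 1 → v (Y' - Y) < 1)
    (hsm : v u ≤ 1 → v Y < 1 → v (3 * u ^ 2 + 2 * (B - A) * u + -(A * B)) < 1 → False) :
    (Point.some u' Y' h' - Point.some u Y h : W.Point) ∈ kerReduction hW hc := by
  rcases le_or_gt (v u) 1 with hu1 | hu1
  swap
  · exact sub_mem ((mem_kerReduction h').mpr (hbig hu1)) ((mem_kerReduction h).mpr hu1)
  rw [sub_eq_add_neg, neg_some]
  by_cases hne : u' = u ∧ Y' = -W.negY u Y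
  · rw [add_of_Y_eq hne.1 (by rw [hne.2, negY_negY, hW.negY_eq, neg_neg])]
    exact zero_mem _
  obtain ⟨u₃, Y₃, l, μ, h₃, hadd, ht⟩ :=
    add_triple hW h' ((nonsingular_neg _ _).mpr h) (by simpa using hne)
  rw [hadd, mem_kerReduction]
  rw [hW.negY_eq] at ht
  by_contra hu₃
  rw [not_lt] at hu₃
  have hu' : v u' ≤ 1 := by
    rw [show u' = (u' - u) + u by ring]; exact v.map_add_le (hu hu1).le hu1
  have hl : v l ≤ 1 := by
    by_contra hl
    rw [not_le] at hl
    have : v (l ^ 2) ≤ 1 := by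
      rw [show l ^ 2 = u' + u + u₃ + (B - A) by linear_combination -ht.e₁]
      exact v.map_add_le (v.map_add_le (v.map_add_le hu' hu1) hu₃) hc.a₂_le
    rw [map_pow] at this
    exact absurd this (not_le.mpr (one_lt_pow₀ hl two_ne_zero))
  have hsumY : v (Y' + Y) < 1 := by
    rw [show Y' + Y = l * (u' - u) by linear_combination ht.y₁ - ht.y₂, map_mul]
    exact (mul_le_of_le_one_left zero_le hl).trans_lt (hu hu1)
  have hY0 : v Y < 1 := by
    have h2 : v (2 * Y) < 1 := by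
      rw [show 2 * Y = (Y' + Y) - (Y' - Y) by ring]; exact v.map_sub_lt hsumY (hY hu1)
    rwa [map_mul, hc.h2, one_mul] at h2
  refine hsm hu1 hY0 ?_
  rw [show 3 * u ^ 2 + 2 * (B - A) * u + -(A * B) = (u - u') * (u - u₃) + 2 * l * -Y by
    linear_combination 2 * u * ht.e₁ - ht.e₂ - 2 * l * ht.y₂]
  refine v.map_add_lt ?_ ?_
  · rw [map_mul, v.map_sub_swap]
    exact (mul_le_of_le_one_right zero_le ((v.map_sub _ _).trans (max_le hu1 hu₃))).trans_lt
      (hu hu1)
  · rw [map_mul, v.map_neg, map_mul, hc.h2, one_mul]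
    exact (mul_le_of_le_one_left zero_le hl).trans_lt hY0

end Subgroups

end Valued

end FLTAgent.FreyUnramified
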