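import Fermat.Agent.FreyUnramified.Cubic
import Mathlib.FieldTheory.IsAlgClosed.Basic

/-!
# Components at a node of `Y² = u (u - A) (u + B)`

For `v A < 1 = v B` the points reducing to the node are graded by branch and depth (`OnBranch`).
`exists_component_generator` gives a point generating the components, and
`two_mul_dvd_of_torsion` the divisibility satisfied by the depth of an odd torsion point.
-/

set_option autoImplicit false

namespace FLTAgent.FreyUnramified

open WeierstrassCurve WeierstrassCurve.Affine WeierstrassCurve.Affine.Point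

variable {K : Type*} [Field K] [DecidableEq K] {W : WeierstrassCurve.Affine K} {A B : K}
  {Γ₀ : Type*} [LinearOrderedCommGroupWithZero Γ₀] {v : Valuation K Γ₀}

/-- `P` lies on the branch of slope `β` at the node, at depth `g`. -/
def OnBranch (v : Valuation K Γ₀) (β : K) (g : Γ₀) (P : W.Point) : Prop :=
  ∃ u Y h, P = Point.some u Y h ∧ v u = g ∧ v (Y - β * u) < g

omit [DecidableEq K] in
lemma neg_two_torsion (hW : IsModel W A B) (h₀ : W.Nonsingular 0 0) :
    -(Point.some 0 0 h₀ : W.Point) = Point.some 0 0 h₀ := by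
  rw [neg_some, some.injEq]
  exact ⟨rfl, by rw [hW.negY_eq, _root_.neg_zero]⟩

variable {β : K}

/-- Data at a node: `v A < 1`, `v B = 1`, and a square root `β` of `B`. -/
structure NodeData (v : Valuation K Γ₀) (A B β : K) : Prop extends IntCoeff v A B where
  A_lt : v A < 1
  sq : β ^ 2 = B
  β_unit : v β = 1

omit [DecidableEq K] in
lemma NodeData.A_ne (_hn : NodeData v A B β) (hW : IsModel W A B) : v A ≠ 0 :=
  v.ne_zero_iff.mpr hW.A_ne

/-- Two points at the same depth on the same branch differ by a point off the node. -/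
lemma OnBranch.sub_mem (hW : IsModel W A B) (hn : NodeData v A B β) {g : Γ₀} {P R : W.Point}
    (hP : OnBranch v β g P) (hR : OnBranch v β g R) :
    P - R ∈ offNode hW hn.toIntCoeff hn.A_lt := by
  obtain ⟨u, Y, h, rfl, hu, hY⟩ := hP
  obtain ⟨r, S, h', rfl, hr, hS⟩ := hR
  by_cases hne : u = r ∧ Y = -W.negY r S
  · rw [sub_eq_add_neg, neg_some, add_of_Y_eq hne.1 (by rw [hne.2, hW.negY_eq, neg_neg,
      hW.negY_eq, neg_neg])]
    exact zero_mem _
  obtain ⟨u₃, Y₃, l, μ, h₃, hadd, ht⟩ :=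
    add_triple hW h ((nonsingular_neg _ _).mpr h') (by simpa using hne)
  rw [sub_eq_add_neg, neg_some, hadd, mem_offNode]
  rw [hW.negY_eq] at ht
  by_contra hu₃
  rw [not_le] at hu₃
  have hg : 0 < g := lt_of_le_of_lt zero_le hY
  have e : μ * (u - r) = -(u * (S - β * r) + r * (Y - β * u) + 2 * β * (u * r)) := by
    linear_combination -u * ht.y₂ + r * ht.y₁
  have hval : v μ * v (u - r) = g * g := by
    rw [← map_mul, e, v.map_neg]
    have hmain : v (2 * β * (u * r)) = g * g := by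
      rw [map_mul, map_mul, map_mul, hn.h2, hn.β_unit, one_mul, one_mul, hu, hr]
    rw [v.map_add_eq_of_lt_right ?_, hmain]
    rw [hmain]
    refine v.map_add_lt ?_ ?_
    · rw [map_mul, hu]; exact mul_lt_mul_of_pos_left hS hg
    · rw [map_mul, hr]; exact mul_lt_mul_of_pos_left hY hg
  have hμ : g ≤ v μ := by
    have h : v (u - r) ≤ g := (v.map_sub u r).trans (by rw [hu, hr, max_self])
    by_contra hlt
    rw [not_le] at hlt
    have : v μ * v (u - r) < g * g :=
      lt_of_le_of_lt (mul_le_mul' le_rfl h) (mul_lt_mul_of_pos_right hlt hg)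
    exact (lt_irrefl _) (hval ▸ this)
  have h1 : g * g * v u₃ < g * g := by
    calc g * g * v u₃ < g * g * 1 := mul_lt_mul_of_pos_left hu₃ (mul_pos hg hg)
      _ = g * g := mul_one _
  have h2 : g * g * v u₃ = v μ * v μ := by
    rw [← map_mul v μ, ← pow_two μ, ← ht.e₃, map_mul, map_mul, hu, hr]
  exact not_le.mpr (h2 ▸ h1) (mul_le_mul' hμ hμ)

lemma OnBranch.add (hW : IsModel W A B) (hn : NodeData v A B β) {g₁ g₂ : Γ₀} {P Q : W.Point}
    (hP : OnBranch v β g₁ P) (hQ : OnBranch v β g₂ Q) (_h₁ : g₁ < 1) (h₂ : g₂ < 1)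
    (hle : v A ≤ g₁ * g₂) :
    (v A < g₁ * g₂ → OnBranch v β (g₁ * g₂) (P + Q)) ∧
      (g₁ * g₂ = v A → ∃ u Y h, P + Q = Point.some u Y h ∧ v u ≤ v A) := by
  obtain ⟨u₁, Y₁, hns₁, rfl, hu₁, hY₁⟩ := hP
  obtain ⟨u₂, Y₂, hns₂, rfl, hu₂, hY₂⟩ := hQ
  have hg₁ : 0 < g₁ := lt_of_le_of_lt zero_le hY₁
  have hg₂ : 0 < g₂ := lt_of_le_of_lt zero_le hY₂
  have hG : 0 < g₁ * g₂ := mul_pos hg₁ hg₂
  -- `D = Y₁ u₂ + Y₂ u₁` is `2 β u₁ u₂` up to smaller terms
  set D := Y₁ * u₂ + Y₂ * u₁ with hDdef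
  have hD' : v (D - 2 * β * (u₁ * u₂)) < g₁ * g₂ := by
    rw [show D - 2 * β * (u₁ * u₂) = u₂ * (Y₁ - β * u₁) + u₁ * (Y₂ - β * u₂) by
      rw [hDdef]; ring]
    refine v.map_add_lt ?_ ?_
    · rw [map_mul, hu₂, mul_comm g₁]; exact mul_lt_mul_of_pos_left hY₁ hg₂
    · rw [map_mul, hu₁]; exact mul_lt_mul_of_pos_left hY₂ hg₁
  have hG' : v (2 * β * (u₁ * u₂)) = g₁ * g₂ := by
    rw [map_mul, map_mul, map_mul, hn.h2, hn.β_unit, one_mul, one_mul, hu₁, hu₂]
  have hD : v D = g₁ * g₂ := by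
    rw [show D = 2 * β * (u₁ * u₂) + (D - 2 * β * (u₁ * u₂)) by ring,
      v.map_add_eq_of_lt_left (by rwa [hG']), hG']
  have hne : ¬(u₁ = u₂ ∧ Y₁ = -Y₂) := by
    rintro ⟨rfl, rfl⟩
    rw [hDdef, show -Y₂ * u₁ + Y₂ * u₁ = (0 : K) by ring, _root_.map_zero] at hD
    exact hG.ne hD
  obtain ⟨u₃, Y₃, l, μ, h₃, hadd, ht⟩ := add_triple hW hns₁ hns₂ hne
  have key : μ * D = -(u₁ * u₂) * (u₁ * u₂ + A * B) := by
    rw [hDdef, ht.y₁, ht.y₂]
    linear_combination u₁ * u₂ * ht.e₂ - (u₁ + u₂) * ht.e₃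
  have hvμ : v μ = v (u₁ * u₂ + A * B) := by
    have := congrArg v key
    rw [map_mul, hD, map_mul, v.map_neg, map_mul, hu₁, hu₂, mul_comm] at this
    exact mul_left_cancel₀ hG.ne' this
  have hvAB : v (A * B) ≤ v A := by
    rw [map_mul]; exact mul_le_of_le_one_right zero_le hn.hB
  have hvu₃ : g₁ * g₂ * v u₃ = v μ * v μ := by
    rw [← map_mul v μ, ← pow_two μ, ← ht.e₃, map_mul, map_mul, hu₁, hu₂]
  refine ⟨fun hlt => ?_, fun heq => ⟨u₃, -Y₃, h₃, hadd, ?_⟩⟩
  · have hμ : v μ = g₁ * g₂ := by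
      rw [hvμ, v.map_add_eq_of_lt_left, map_mul, hu₁, hu₂]
      rw [map_mul v u₁, hu₁, hu₂]
      exact hvAB.trans_lt hlt
    have hu₃ : v u₃ = g₁ * g₂ := by
      rw [hμ] at hvu₃; exact mul_left_cancel₀ hG.ne' hvu₃
    refine ⟨u₃, -Y₃, h₃, hadd, hu₃, ?_⟩
    have hlβ : v (l - β) < 1 := by
      have h : v ((l - β) * u₁) < g₁ := by
        rw [show (l - β) * u₁ = (Y₁ - β * u₁) - μ by linear_combination -ht.y₁]
        refine v.map_sub_lt hY₁ ?_
        rw [hμ]
        exact (mul_lt_mul_of_pos_left h₂ hg₁).trans_eq (mul_one _)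
      rw [map_mul, hu₁] at h
      by_contra hc
      rw [not_lt] at hc
      exact absurd h (not_lt.mpr (le_mul_of_one_le_left zero_le hc))
    set E := 2 * β * μ + u₁ * u₂ with hEdef
    have hE : v E < g₁ * g₂ := by
      have hE' : E * D = u₁ * u₂ * ((D - 2 * β * (u₁ * u₂)) - 2 * β * (A * B)) := by
        rw [hEdef]; linear_combination 2 * β * key
      have := congrArg v hE'
      rw [map_mul, hD, map_mul (f := v) (u₁ * u₂), map_mul v u₁, hu₁, hu₂, mul_comm] at this
      rw [mul_left_cancel₀ hG.ne' this]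
      refine v.map_sub_lt hD' ?_
      rw [map_mul, map_mul, hn.h2, hn.β_unit, one_mul, one_mul]
      exact hvAB.trans_lt hlt
    have hlin : v (2 * β * u₃ + μ) < g₁ * g₂ := by
      have h : u₁ * u₂ * (2 * β * u₃ + μ) = μ * E := by
        rw [hEdef]; linear_combination 2 * β * ht.e₃
      have := congrArg v h
      rw [map_mul, map_mul, hu₁, hu₂, map_mul, hμ] at this
      rw [mul_left_cancel₀ hG.ne' this]
      exact hE
    rw [show -Y₃ - β * u₃ = -((l - β) * u₃ + (2 * β * u₃ + μ)) by rw [ht.y₃]; ring, v.map_neg]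
    refine v.map_add_lt ?_ hlin
    rw [map_mul, hu₃]
    exact (mul_lt_mul_of_pos_right hlβ hG).trans_eq (one_mul _)
  · have hμ : v μ ≤ g₁ * g₂ := by
      rw [hvμ]
      refine v.map_add_le ?_ (hvAB.trans hle)
      rw [map_mul, hu₁, hu₂]
    rw [← heq]
    refine le_of_mul_le_mul_left ?_ hG
    rw [hvu₃]
    exact mul_le_mul' hμ hμ

/-- Translating a point of depth at least `v A` by `(0,0)` moves it off the node. -/
lemma add_two_torsion_mem (hW : IsModel W A B) (hn : NodeData v A B β) {u Y : K}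
    (h : W.Nonsingular u Y) (h₀ : W.Nonsingular 0 0) (hu : v u ≤ v A) :
    Point.some u Y h + Point.some 0 0 h₀ ∈ offNode hW hn.toIntCoeff hn.A_lt := by
  by_cases hu0 : u = 0
  · have hY : Y = 0 := by
      have := (hW.equation_iff u Y).mp h.left
      rw [hu0, zero_mul, zero_mul] at this
      exact pow_eq_zero_iff two_ne_zero |>.mp this
    rw [add_of_Y_eq hu0 (by rw [hW.negY_eq, hY, _root_.neg_zero])]
    exact zero_mem _
  obtain ⟨u₃, Y₃, l, μ, h₃, hadd, ht⟩ := add_triple hW h h₀ (fun hh => hu0 hh.1)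
  rw [hadd, mem_offNode]
  have hμ : μ = 0 := by linear_combination -ht.y₂
  have e : u * u₃ = -(A * B) := by
    have := ht.e₂
    rw [hμ] at this
    linear_combination this
  have hB : v B = 1 := by rw [← hn.sq, map_pow, hn.β_unit, one_pow]
  have hv := congrArg v e
  rw [v.map_neg, map_mul, map_mul, hB, mul_one] at hv
  by_contra hlt
  rw [not_le] at hlt
  have : v u * v u₃ < v A :=
    lt_of_le_of_lt (mul_le_mul' hu le_rfl)
      ((mul_lt_mul_of_pos_left hlt (pos_of_ne_zero (hn.A_ne hW))).trans_eq (mul_one _))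
  exact this.ne hv

lemma two_torsion_not_mem (hW : IsModel W A B) (hn : NodeData v A B β)
    (h₀ : W.Nonsingular 0 0) : Point.some 0 0 h₀ ∉ offNode hW hn.toIntCoeff hn.A_lt := by
  rw [mem_offNode, _root_.map_zero, not_le]
  exact zero_lt_one

/-- A point with a multiple of odd order off the node is shallower than `v A`. -/
theorem val_A_lt_of_nsmul_mem (hW : IsModel W A B) (hn : NodeData v A B β) {p : ℕ} (hp : Odd p)
    {u Y : K} (h : W.Nonsingular u Y)
    (hP : p • (Point.some u Y h : W.Point) ∈ offNode hW hn.toIntCoeff hn.A_lt) : v A < v u := by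
  by_contra hle
  rw [not_lt] at hle
  have h₀ : W.Nonsingular 0 0 := hW.nonsingular (by ring)
  have h2 : Point.some 0 0 h₀ + Point.some 0 0 h₀ = (0 : W.Point) :=
    add_eq_zero_iff_eq_neg.mpr (neg_two_torsion hW h₀).symm
  have h1 := nsmul_mem (add_two_torsion_mem hW hn h h₀ hle) p
  rw [nsmul_add] at h1
  obtain ⟨k, rfl⟩ := hp
  have hT : (2 * k + 1) • (Point.some 0 0 h₀ : W.Point) = Point.some 0 0 h₀ := by
    rw [succ_nsmul, mul_comm 2 k, mul_nsmul', two_nsmul, h2, nsmul_zero, zero_add]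
  rw [hT] at h1
  exact two_torsion_not_mem hW hn h₀ (by simpa using sub_mem h1 hP)

/-- An odd torsion point at the node is shallower than `v A`. -/
lemma val_A_lt_of_torsion (hW : IsModel W A B) (hn : NodeData v A B β) {p : ℕ} (hp : Odd p)
    {u Y : K} (h : W.Nonsingular u Y) (hP : p • (Point.some u Y h : W.Point) = 0) : v A < v u :=
  val_A_lt_of_nsmul_mem hW hn hp h (hP ▸ zero_mem _)

omit [DecidableEq K] in
lemma exists_onBranch_or_neg (hW : IsModel W A B) (hn : NodeData v A B β) {u Y : K}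
    (h : W.Nonsingular u Y) (hA : v A < v u) (hu : v u < 1) :
    OnBranch v β (v u) (Point.some u Y h) ∨ OnBranch v β (v u) (-Point.some u Y h) := by
  have e : (Y - β * u) * (Y + β * u) = u ^ 3 - A * u ^ 2 - A * B * u := by
    have := (hW.equation_iff u Y).mp h.left
    linear_combination this - u ^ 2 * hn.sq
  have hpos : 0 < v u := lt_of_le_of_lt zero_le hA
  have hlt : v (Y - β * u) * v (Y + β * u) < v u * v u := by
    rw [← map_mul, e]
    refine v.map_sub_lt (v.map_sub_lt ?_ ?_) ?_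
    · rw [map_pow, pow_three]
      exact mul_lt_mul_of_pos_left ((mul_lt_mul_of_pos_left hu hpos).trans_eq (mul_one _)) hpos
    · rw [map_mul, map_pow, pow_two]
      exact (mul_lt_mul_of_pos_right hn.A_lt (mul_pos hpos hpos)).trans_eq (one_mul _)
    · rw [map_mul, map_mul]
      refine (mul_lt_mul_of_pos_right ?_ hpos)
      exact (mul_le_of_le_one_right zero_le hn.hB).trans_lt hA
  by_cases h1 : v (Y - β * u) < v u
  · exact Or.inl ⟨u, Y, h, rfl, rfl, h1⟩
  · right
    refine ⟨u, -Y, (hW.negY_eq u Y) ▸ (nonsingular_neg _ _).mpr h, ?_, rfl, ?_⟩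
    · rw [neg_some, some.injEq]; exact ⟨rfl, hW.negY_eq u Y⟩
    · rw [show -Y - β * u = -(Y + β * u) by ring, v.map_neg]
      by_contra h2
      rw [not_lt] at h1 h2
      exact absurd hlt (not_lt.mpr (mul_le_mul' h1 h2))

omit [DecidableEq K] in
lemma exists_onBranch (hW : IsModel W A B) (hn : NodeData v A B β) [IsAlgClosed K] {t : K}
    (hA : v A < v t) (ht : v t < 1) : ∃ R : W.Point, OnBranch v β (v t) R := by
  obtain ⟨Y, hY⟩ := IsAlgClosed.exists_pow_nat_eq (t * (t - A) * (t + B)) two_pos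
  rcases exists_onBranch_or_neg hW hn (hW.nonsingular hY) hA ht with h | h <;> exact ⟨_, h⟩

/-- The multiples of a point of depth `v t` on the branch give the components. -/
theorem exists_component_generator (hW : IsModel W A B) (hn : NodeData v A B β) [IsAlgClosed K]
    {t : K} {M : ℕ} (ht : v t < 1) (hM : v t ^ M = v A) (hM2 : 2 ≤ M) :
    ∃ R : W.Point, (2 * M) • R ∈ offNode hW hn.toIntCoeff hn.A_lt ∧
      (∀ r, 0 < r → r < 2 * M → r • R ∉ offNode hW hn.toIntCoeff hn.A_lt) ∧
      ∀ a P, 0 < a → a < M → OnBranch v β (v t ^ a) P →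
        P - a • R ∈ offNode hW hn.toIntCoeff hn.A_lt := by
  have hc : 0 < v t := by
    refine pos_of_ne_zero fun h => ?_
    rw [h, zero_pow (by omega)] at hM
    exact hn.A_ne hW hM.symm
  have hlt : ∀ i, i < M → v A < v t ^ i := fun i hi => by
    rw [← hM]; exact pow_lt_pow_right_of_lt_one₀ hc ht hi
  obtain ⟨R, hR⟩ := exists_onBranch hW hn (t := t) (by simpa using hlt 1 (by omega)) ht
  have step : ∀ i, 1 ≤ i → i < M → OnBranch v β (v t ^ i) (i • R) := by
    intro i
    induction i with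
    | zero => intro h; omega
    | succ i ih =>
      intro _ hi
      rcases Nat.eq_zero_or_pos i with rfl | hi0
      · simpa using hR
      · rw [succ_nsmul, pow_succ]
        exact ((ih hi0 (by omega)).add hW hn hR (pow_lt_one₀ zero_le ht (by omega)) ht
          (by rw [← pow_succ]; exact (hlt _ hi).le)).1 (by rw [← pow_succ]; exact hlt _ hi)
  set N := offNode hW hn.toIntCoeff hn.A_lt with hN
  have hnot : ∀ i, 1 ≤ i → i < M → i • R ∉ N := by
    intro i h1 h2 hmem
    obtain ⟨u, Y, h, he, hu, -⟩ := step i h1 h2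
    rw [he, hN, mem_offNode, hu] at hmem
    exact absurd hmem (not_le.mpr (pow_lt_one₀ zero_le ht (by omega)))
  have h₀ : W.Nonsingular 0 0 := hW.nonsingular (by ring)
  have hMT : M • R + Point.some 0 0 h₀ ∈ N := by
    have hstep := ((step (M - 1) (by omega) (by omega)).add hW hn hR
      (pow_lt_one₀ zero_le ht (by omega)) ht
      (by rw [← pow_succ, Nat.sub_add_cancel (by omega : 1 ≤ M), hM])).2
      (by rw [← pow_succ, Nat.sub_add_cancel (by omega : 1 ≤ M), hM])
    rw [← succ_nsmul, Nat.sub_add_cancel (by omega : 1 ≤ M)] at hstep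
    obtain ⟨u, Y, h, he, hu⟩ := hstep
    rw [he]
    exact add_two_torsion_mem hW hn h h₀ hu
  have hMnot : M • R ∉ N := fun hmem =>
    two_torsion_not_mem hW hn h₀ (by simpa using N.sub_mem hMT hmem)
  have h2M : (2 * M) • R ∈ N := by
    have h := N.add_mem hMT hMT
    rwa [add_add_add_comm, add_eq_zero_iff_eq_neg.mpr (neg_two_torsion hW h₀).symm, add_zero,
      ← two_nsmul, ← mul_nsmul'] at h
  refine ⟨R, h2M, fun r hr0 hr2 hr => ?_, fun a P ha haM hP => hP.sub_mem hW hn (step a ha haM)⟩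
  rcases lt_trichotomy r M with hlt' | rfl | hgt
  · exact hnot r hr0 hlt' hr
  · exact hMnot hr
  · have h := N.sub_mem h2M hr
    rw [show (2 * M) • R = (2 * M - r) • R + r • R by rw [← add_nsmul, Nat.sub_add_cancel hr2.le],
      add_sub_cancel_right] at h
    exact hnot (2 * M - r) (by omega) (by omega) h

/-- An odd torsion point on the branch at depth `c ^ a`, where `c ^ M = v A`, has `2 M ∣ p a`. -/
lemma two_mul_dvd_of_torsion (hW : IsModel W A B) (hn : NodeData v A B β) [IsAlgClosed K]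
    {t : K} {M a p : ℕ} (ht : v t < 1) (hM : v t ^ M = v A) (hM2 : 2 ≤ M) (ha : 0 < a)
    (haM : a < M) {P : W.Point} (hP : OnBranch v β (v t ^ a) P) (hpP : p • P = 0) :
    2 * M ∣ p * a := by
  obtain ⟨R, h2M, hnot, hcls⟩ := exists_component_generator hW hn ht hM hM2
  set N := offNode hW hn.toIntCoeff hn.A_lt
  have hpa : (p * a) • R ∈ N := by
    have h := nsmul_mem (hcls a P ha haM hP) p
    rwa [nsmul_sub, hpP, zero_sub, ← mul_nsmul', neg_mem_iff] at h
  have hr : (p * a % (2 * M)) • R ∈ N := by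
    have h := N.sub_mem hpa (nsmul_mem h2M (p * a / (2 * M)))
    rwa [← mul_nsmul', show (p * a) • R = (p * a % (2 * M)) • R + (p * a / (2 * M) * (2 * M)) • R by
      rw [← add_nsmul, Nat.mod_add_div'], add_sub_cancel_right] at h
  refine Nat.dvd_of_mod_eq_zero ?_
  by_contra hr0
  exact hnot _ (by omega) (Nat.mod_lt _ (by omega)) hr

end FLTAgent.FreyUnramified
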